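import Fermat.Agent.Lib.VC.Basic

/-!
# Shared lib `VC`: change of variables on points, base-changed version and naturality

For `W : WeierstrassCurve k`, `C : VariableChange k` and a field `F` over `k` we get
`vcPointBC : ((C • W)⁄F).Point ≃+ (W⁄F).Point`, natural in `F` (`Point.map`).
Consequences: equality of point counts, and transfer of any relation between `Point.map f`'s
(e.g. the Frobenius relation `Φ² − aΦ + ℓ = 0`) from `C • W` to `W`.

(helper240)
-/

set_option autoImplicit false
set_option linter.unusedSectionVars false

namespace Fermat.Agent.Lib.VC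

open WeierstrassCurve WeierstrassCurve.Affine

section congr

variable {F : Type*} [Field F] [DecidableEq F]

/-- Transport of points along an equality of curves. -/
def pointCongr {W₁ W₂ : WeierstrassCurve F} (h : W₁ = W₂) :
    W₁.toAffine.Point ≃+ W₂.toAffine.Point := by
  subst h
  exact AddEquiv.refl _

theorem pointCongr_zero {W₁ W₂ : WeierstrassCurve F} (h : W₁ = W₂) :
    pointCongr h (0 : W₁.toAffine.Point) = 0 := by
  subst h; rfl

theorem pointCongr_some {W₁ W₂ : WeierstrassCurve F} (h : W₁ = W₂) {x y : F}
    (hxy : W₁.toAffine.Nonsingular x y) :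
    pointCongr h (Point.some x y hxy) = Point.some x y (h ▸ hxy) := by
  subst h; rfl

end congr

section baseChange

variable {k : Type*} [CommRing k] (W : WeierstrassCurve k) (C : VariableChange k)
variable (F : Type*) [Field F] [Algebra k F] [DecidableEq F]
variable (K : Type*) [Field K] [Algebra k K] [DecidableEq K]

theorem baseChange_smul :
    (C.baseChange F) • (W.baseChange F) = (C • W).baseChange F :=
  map_variableChange W C (algebraMap k F)

/-- The change of variables on `F`-points, for a curve and a change of variables defined
over `k`. -/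
noncomputable def vcPointBC : ((C • W)⁄F).Point ≃+ (W⁄F).Point :=
  (pointCongr (baseChange_smul W C F).symm).trans (vcPoint (W.baseChange F) (C.baseChange F))

theorem vcPointBC_zero : vcPointBC W C F 0 = 0 := by
  simp [vcPointBC, pointCongr_zero]

theorem vcPointBC_some {x y : F} (h : ((C • W)⁄F).Nonsingular x y) :
    ∃ h' : (W⁄F).Nonsingular (vcX (C.baseChange F) x) (vcY (C.baseChange F) x y),
      vcPointBC W C F (Point.some x y h) = Point.some _ _ h' := by
  refine ⟨?_, ?_⟩
  · exact (nonsingular_smul_iff (W.baseChange F) (C.baseChange F) x y).mp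
      ((baseChange_smul W C F).symm ▸ h)
  · simp only [vcPointBC, AddEquiv.trans_apply, pointCongr_some, vcPoint_some]

variable {F K}

theorem map_vcX (f : F →ₐ[k] K) (x : F) :
    f (vcX (C.baseChange F) x) = vcX (C.baseChange K) (f x) := by
  simp only [vcX, VariableChange.baseChange, VariableChange.map, Units.coe_map,
    MonoidHom.coe_coe, map_add, map_mul, map_pow, AlgHom.commutes]

theorem map_vcY (f : F →ₐ[k] K) (x y : F) :
    f (vcY (C.baseChange F) x y) = vcY (C.baseChange K) (f x) (f y) := by
  simp only [vcY, VariableChange.baseChange, VariableChange.map, Units.coe_map,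
    MonoidHom.coe_coe, map_add, map_mul, map_pow, AlgHom.commutes]

/-- **Naturality** of the change of variables on points. -/
theorem map_vcPointBC (f : F →ₐ[k] K) (P : ((C • W)⁄F).Point) :
    Point.map (W' := W) f (vcPointBC W C F P)
      = vcPointBC W C K (Point.map (W' := C • W) f P) := by
  rcases P with _ | ⟨x, y, h⟩
  · change Point.map (W' := W) f (vcPointBC W C F 0)
      = vcPointBC W C K (Point.map (W' := C • W) f 0)
    rw [vcPointBC_zero, map_zero, map_zero, vcPointBC_zero]
  · obtain ⟨h', e⟩ := vcPointBC_some W C F h
    rw [e, Point.map_some, Point.map_some]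
    obtain ⟨h'', e'⟩ := vcPointBC_some W C K
      ((WeierstrassCurve.Affine.baseChange_nonsingular (C • W) f.injective x y).mpr h)
    rw [e']
    simp only [Point.some.injEq]
    exact ⟨map_vcX C f x, map_vcY C f x y⟩

/-- The inverse direction of naturality. -/
theorem map_vcPointBC_symm (f : F →ₐ[k] K) (Q : (W⁄F).Point) :
    Point.map (W' := C • W) f ((vcPointBC W C F).symm Q)
      = (vcPointBC W C K).symm (Point.map (W' := W) f Q) := by
  apply (vcPointBC W C K).injective
  rw [← map_vcPointBC, AddEquiv.apply_symm_apply, AddEquiv.apply_symm_apply]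

variable (F)

/-- Point counts agree. -/
theorem natCard_point_smul :
    Nat.card ((C • W)⁄F).Point = Nat.card (W⁄F).Point :=
  Nat.card_congr (vcPointBC W C F).toEquiv

variable {F}

/-- **Transfer of a quadratic relation** for an endomorphism of the form `Point.map f`
(e.g. Frobenius) from `C • W` to `W`. -/
theorem relation_transfer (f : F →ₐ[k] F) (a b : ℤ)
    (h : ∀ P : ((C • W)⁄F).Point,
      Point.map (W' := C • W) f (Point.map (W' := C • W) f P)
        - a • Point.map (W' := C • W) f P + b • P = 0)
    (Q : (W⁄F).Point) :
    Point.map (W' := W) f (Point.map (W' := W) f Q)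
      - a • Point.map (W' := W) f Q + b • Q = 0 := by
  obtain ⟨P, rfl⟩ := (vcPointBC W C F).surjective Q
  have := congrArg (vcPointBC W C F) (h P)
  rw [map_zero, map_add, map_sub, map_zsmul, map_zsmul, ← map_vcPointBC, ← map_vcPointBC] at this
  exact this

end baseChange

end Fermat.Agent.Lib.VC
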