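import Mathlib.AlgebraicGeometry.EllipticCurve.Affine.Point
import Mathlib.AlgebraicGeometry.EllipticCurve.VariableChange
import Mathlib.Tactic.FieldSimp
import Mathlib.Tactic.LinearCombination

/-!
# Shared lib `VC`: admissible changes of variables act on POINTS

Mathlib defines the action of `WeierstrassCurve.VariableChange` on Weierstrass curves only.
Here we show that, over a field `F`, the change of variables
`(x, y) ↦ (u² x + r, u³ y + u² s x + t)` induces an isomorphism of groups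
`(C • W).Point ≃+ W.Point`  (`vcPoint`), compatible with field homomorphisms (`Point.map`).

(helper240)
-/

set_option autoImplicit false
set_option linter.unusedSectionVars false

namespace Fermat.Agent.Lib.VC

open WeierstrassCurve WeierstrassCurve.Affine

variable {F : Type*} [Field F]

/-- The `x`-coordinate of the image of `(x, y)` under the change of variables `C`. -/
def vcX (C : VariableChange F) (x : F) : F := (C.u : F) ^ 2 * x + C.r

/-- The `y`-coordinate of the image of `(x, y)` under the change of variables `C`. -/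
def vcY (C : VariableChange F) (x y : F) : F := (C.u : F) ^ 3 * y + (C.u : F) ^ 2 * C.s * x + C.t

theorem vcX_injective (C : VariableChange F) : Function.Injective (vcX C) := by
  intro x x' h
  have hu : (C.u : F) ^ 2 ≠ 0 := pow_ne_zero _ C.u.ne_zero
  unfold vcX at h
  exact mul_left_cancel₀ hu (add_right_cancel h)

theorem vcY_injective (C : VariableChange F) (x : F) : Function.Injective (vcY C x) := by
  intro y y' h
  have hu : (C.u : F) ^ 3 ≠ 0 := pow_ne_zero _ C.u.ne_zero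
  unfold vcY at h
  exact mul_left_cancel₀ hu (add_right_cancel (add_right_cancel h))

section formulas

variable (W : WeierstrassCurve F) (C : VariableChange F)

theorem a₁_smul : (C • W).a₁ = (C.u : F)⁻¹ * (W.a₁ + 2 * C.s) := by
  rw [variableChange_a₁, Units.val_inv_eq_inv_val]

theorem a₂_smul : (C • W).a₂ = (C.u : F)⁻¹ ^ 2 * (W.a₂ - C.s * W.a₁ + 3 * C.r - C.s ^ 2) := by
  rw [variableChange_a₂, Units.val_inv_eq_inv_val]

theorem a₃_smul : (C • W).a₃ = (C.u : F)⁻¹ ^ 3 * (W.a₃ + C.r * W.a₁ + 2 * C.t) := by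
  rw [variableChange_a₃, Units.val_inv_eq_inv_val]

theorem a₄_smul : (C • W).a₄ = (C.u : F)⁻¹ ^ 4 * (W.a₄ - C.s * W.a₃ + 2 * C.r * W.a₂
    - (C.t + C.r * C.s) * W.a₁ + 3 * C.r ^ 2 - 2 * C.s * C.t) := by
  rw [variableChange_a₄, Units.val_inv_eq_inv_val]

theorem a₆_smul : (C • W).a₆ = (C.u : F)⁻¹ ^ 6 * (W.a₆ + C.r * W.a₄ + C.r ^ 2 * W.a₂ + C.r ^ 3
    - C.t * W.a₃ - C.t ^ 2 - C.r * C.t * W.a₁) := by
  rw [variableChange_a₆, Units.val_inv_eq_inv_val]

/-- The Weierstrass polynomial transforms by the factor `u⁶`. -/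
theorem polynomial_eval_vc (x y : F) :
    (vcY C x y) ^ 2 + W.a₁ * (vcX C x) * (vcY C x y) + W.a₃ * (vcY C x y)
      - ((vcX C x) ^ 3 + W.a₂ * (vcX C x) ^ 2 + W.a₄ * (vcX C x) + W.a₆)
    = (C.u : F) ^ 6 * (y ^ 2 + (C • W).a₁ * x * y + (C • W).a₃ * y
      - (x ^ 3 + (C • W).a₂ * x ^ 2 + (C • W).a₄ * x + (C • W).a₆)) := by
  have hu : (C.u : F) ≠ 0 := C.u.ne_zero
  rw [a₁_smul, a₂_smul, a₃_smul, a₄_smul, a₆_smul]
  unfold vcX vcY
  field_simp
  ring

theorem equation_smul_iff (x y : F) :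
    (C • W).toAffine.Equation x y ↔ W.toAffine.Equation (vcX C x) (vcY C x y) := by
  have hu : (C.u : F) ^ 6 ≠ 0 := pow_ne_zero _ C.u.ne_zero
  rw [equation_iff, equation_iff, ← sub_eq_zero, ← sub_eq_zero (a := (vcY C x y) ^ 2 + _ + _)]
  show _ ↔ (vcY C x y) ^ 2 + W.a₁ * (vcX C x) * (vcY C x y) + W.a₃ * (vcY C x y)
      - ((vcX C x) ^ 3 + W.a₂ * (vcX C x) ^ 2 + W.a₄ * (vcX C x) + W.a₆) = 0
  rw [polynomial_eval_vc, mul_eq_zero]
  constructor
  · intro h; exact Or.inr h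
  · rintro (h | h)
    · exact absurd h hu
    · exact h

/-- Transformation of the partial derivative in `y`. -/
theorem polynomialY_eval_vc (x y : F) :
    2 * vcY C x y + W.a₁ * vcX C x + W.a₃
      = (C.u : F) ^ 3 * (2 * y + (C • W).a₁ * x + (C • W).a₃) := by
  have hu : (C.u : F) ≠ 0 := C.u.ne_zero
  rw [a₁_smul, a₃_smul]
  unfold vcX vcY
  field_simp
  ring

/-- Transformation of the partial derivative in `x`. -/
theorem polynomialX_eval_vc (x y : F) :
    W.a₁ * vcY C x y - (3 * vcX C x ^ 2 + 2 * W.a₂ * vcX C x + W.a₄)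
      = (C.u : F) ^ 4 * ((C • W).a₁ * y - (3 * x ^ 2 + 2 * (C • W).a₂ * x + (C • W).a₄))
        - C.s * ((C.u : F) ^ 3 * (2 * y + (C • W).a₁ * x + (C • W).a₃)) := by
  have hu : (C.u : F) ≠ 0 := C.u.ne_zero
  rw [a₁_smul, a₂_smul, a₃_smul, a₄_smul]
  unfold vcX vcY
  field_simp
  ring

theorem nonsingular_smul_iff (x y : F) :
    (C • W).toAffine.Nonsingular x y ↔ W.toAffine.Nonsingular (vcX C x) (vcY C x y) := by
  have hu3 : (C.u : F) ^ 3 ≠ 0 := pow_ne_zero _ C.u.ne_zero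
  have hu4 : (C.u : F) ^ 4 ≠ 0 := pow_ne_zero _ C.u.ne_zero
  rw [nonsingular_iff', nonsingular_iff', equation_smul_iff, polynomialX_eval_vc,
    polynomialY_eval_vc]
  refine and_congr_right fun _ => ?_
  by_cases hY : 2 * y + (C • W).a₁ * x + (C • W).a₃ = 0
  · rw [hY]
    simp only [mul_zero, sub_zero, ne_eq, not_true_eq_false, or_false, mul_eq_zero, hu4, false_or]
  · have : (C.u : F) ^ 3 * (2 * y + (C • W).a₁ * x + (C • W).a₃) ≠ 0 := mul_ne_zero hu3 hY
    simp only [ne_eq, hY, not_false_eq_true, or_true, this]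

theorem negY_vc (x y : F) :
    W.toAffine.negY (vcX C x) (vcY C x y) = vcY C x ((C • W).toAffine.negY x y) := by
  have hu : (C.u : F) ≠ 0 := C.u.ne_zero
  simp only [negY]
  rw [a₁_smul, a₃_smul]
  unfold vcX vcY
  field_simp
  ring

theorem addX_vc (x₁ x₂ ℓ : F) :
    W.toAffine.addX (vcX C x₁) (vcX C x₂) ((C.u : F) * ℓ + C.s)
      = vcX C ((C • W).toAffine.addX x₁ x₂ ℓ) := by
  have hu : (C.u : F) ≠ 0 := C.u.ne_zero
  simp only [addX]
  rw [a₁_smul, a₂_smul]
  unfold vcX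
  field_simp
  ring

theorem negAddY_vc (x₁ x₂ y₁ ℓ : F) :
    W.toAffine.negAddY (vcX C x₁) (vcX C x₂) (vcY C x₁ y₁) ((C.u : F) * ℓ + C.s)
      = vcY C ((C • W).toAffine.addX x₁ x₂ ℓ) ((C • W).toAffine.negAddY x₁ x₂ y₁ ℓ) := by
  rw [negAddY, addX_vc, negAddY]
  unfold vcX vcY
  ring

theorem addY_vc (x₁ x₂ y₁ ℓ : F) :
    W.toAffine.addY (vcX C x₁) (vcX C x₂) (vcY C x₁ y₁) ((C.u : F) * ℓ + C.s)
      = vcY C ((C • W).toAffine.addX x₁ x₂ ℓ) ((C • W).toAffine.addY x₁ x₂ y₁ ℓ) := by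
  rw [addY, negAddY_vc, addX_vc, negY_vc, addY]

variable [DecidableEq F]

theorem slope_vc {x₁ x₂ y₁ y₂ : F} (h₁ : (C • W).toAffine.Equation x₁ y₁)
    (h₂ : (C • W).toAffine.Equation x₂ y₂)
    (hxy : ¬(x₁ = x₂ ∧ y₁ = (C • W).toAffine.negY x₂ y₂)) :
    W.toAffine.slope (vcX C x₁) (vcX C x₂) (vcY C x₁ y₁) (vcY C x₂ y₂)
      = (C.u : F) * (C • W).toAffine.slope x₁ x₂ y₁ y₂ + C.s := by
  have hu : (C.u : F) ≠ 0 := C.u.ne_zero
  by_cases hx : x₁ = x₂
  · have hy : y₁ ≠ (C • W).toAffine.negY x₂ y₂ := fun h => hxy ⟨hx, h⟩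
    have hyy : y₁ = y₂ := Y_eq_of_Y_ne h₁ h₂ hx hy
    subst hx hyy
    have hy' : vcY C x₁ y₁ ≠ W.toAffine.negY (vcX C x₁) (vcY C x₁ y₁) := by
      rw [negY_vc]
      exact fun h => hy (vcY_injective C x₁ h)
    rw [slope_of_Y_ne rfl hy', slope_of_Y_ne rfl hy]
    have hd : y₁ - (C • W).toAffine.negY x₁ y₁ ≠ 0 := sub_ne_zero.mpr hy
    have hd' : vcY C x₁ y₁ - W.toAffine.negY (vcX C x₁) (vcY C x₁ y₁) ≠ 0 := sub_ne_zero.mpr hy'
    have e1 : vcY C x₁ y₁ - W.toAffine.negY (vcX C x₁) (vcY C x₁ y₁)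
        = (C.u : F) ^ 3 * (y₁ - (C • W).toAffine.negY x₁ y₁) := by
      have := polynomialY_eval_vc W C x₁ y₁
      simp only [negY]
      linear_combination this
    have e2 : 3 * vcX C x₁ ^ 2 + 2 * W.a₂ * vcX C x₁ + W.a₄ - W.a₁ * vcY C x₁ y₁
        = (C.u : F) ^ 4 * (3 * x₁ ^ 2 + 2 * (C • W).a₂ * x₁ + (C • W).a₄ - (C • W).a₁ * y₁)
          + C.s * ((C.u : F) ^ 3 * (y₁ - (C • W).toAffine.negY x₁ y₁)) := by
      have := polynomialX_eval_vc W C x₁ y₁
      simp only [negY]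
      linear_combination -this
    rw [e2, e1]
    field_simp
  · have hx' : vcX C x₁ ≠ vcX C x₂ := fun h => hx (vcX_injective C h)
    rw [slope_of_X_ne hx', slope_of_X_ne hx]
    have hd : x₁ - x₂ ≠ 0 := sub_ne_zero.mpr hx
    have hd' : vcX C x₁ - vcX C x₂ ≠ 0 := sub_ne_zero.mpr hx'
    have e1 : vcX C x₁ - vcX C x₂ = (C.u : F) ^ 2 * (x₁ - x₂) := by unfold vcX; ring
    have e2 : vcY C x₁ y₁ - vcY C x₂ y₂
        = (C.u : F) ^ 3 * (y₁ - y₂) + (C.u : F) ^ 2 * C.s * (x₁ - x₂) := by unfold vcY; ring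
    rw [e2, e1]
    field_simp

/-- The map on points induced by the change of variables `C`. -/
def toFun : (C • W).toAffine.Point → W.toAffine.Point
  | .zero => .zero
  | .some x y h => .some (vcX C x) (vcY C x y) ((nonsingular_smul_iff W C x y).mp h)

@[simp] theorem toFun_zero : toFun W C (0 : (C • W).toAffine.Point) = 0 := rfl

@[simp] theorem toFun_some {x y : F} (h : (C • W).toAffine.Nonsingular x y) :
    toFun W C (.some x y h) = .some (vcX C x) (vcY C x y) ((nonsingular_smul_iff W C x y).mp h) :=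
  rfl

theorem toFun_add (P Q : (C • W).toAffine.Point) :
    toFun W C (P + Q) = toFun W C P + toFun W C Q := by
  rcases P with _ | ⟨x₁, y₁, h₁⟩
  · change toFun W C (0 + Q) = 0 + toFun W C Q
    rw [zero_add, zero_add]
  rcases Q with _ | ⟨x₂, y₂, h₂⟩
  · change toFun W C (_ + 0) = _ + 0
    rw [add_zero, add_zero]
  by_cases hxy : x₁ = x₂ ∧ y₁ = (C • W).toAffine.negY x₂ y₂
  · rw [Point.add_of_Y_eq hxy.1 hxy.2, toFun_zero, toFun_some, toFun_some,
      Point.add_of_Y_eq (congrArg _ hxy.1) (by rw [negY_vc, hxy.2, hxy.1])]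
  · have hxy' : ¬(vcX C x₁ = vcX C x₂ ∧
        vcY C x₁ y₁ = W.toAffine.negY (vcX C x₂) (vcY C x₂ y₂)) := by
      rintro ⟨hx, hy⟩
      have hx0 := vcX_injective C hx
      subst hx0
      rw [negY_vc] at hy
      exact hxy ⟨rfl, vcY_injective C x₁ hy⟩
    rw [Point.add_some hxy, toFun_some, toFun_some, toFun_some, Point.add_some hxy']
    simp only [Point.some.injEq]
    rw [slope_vc W C h₁.1 h₂.1 hxy]
    exact ⟨(addX_vc W C _ _ _).symm, (addY_vc W C _ _ _ _).symm⟩

theorem toFun_injective : Function.Injective (toFun W C) := by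
  rintro (_ | ⟨x₁, y₁, h₁⟩) (_ | ⟨x₂, y₂, h₂⟩) h
  · rfl
  · simp [toFun] at h
  · simp [toFun] at h
  · simp only [toFun, Point.some.injEq] at h
    obtain ⟨hx, hy⟩ := h
    have hx0 := vcX_injective C hx
    subst hx0
    have hy0 := vcY_injective C x₁ hy
    subst hy0
    rfl

theorem toFun_surjective : Function.Surjective (toFun W C) := by
  have hu : (C.u : F) ≠ 0 := C.u.ne_zero
  rintro (_ | ⟨X, Y, h⟩)
  · exact ⟨0, rfl⟩
  · set x : F := (X - C.r) / (C.u : F) ^ 2 with hx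
    set y : F := (Y - (C.u : F) ^ 2 * C.s * x - C.t) / (C.u : F) ^ 3 with hy
    have eX : vcX C x = X := by
      rw [hx]; unfold vcX; field_simp; ring
    have eY : vcY C x y = Y := by
      rw [hy]; unfold vcY; field_simp; ring
    have h' : (C • W).toAffine.Nonsingular x y := by
      rw [nonsingular_smul_iff, eX, eY]; exact h
    refine ⟨.some x y h', ?_⟩
    simp only [toFun, Point.some.injEq]
    exact ⟨eX, eY⟩

/-- **The change of variables on points**: `(C • W).Point ≃+ W.Point`,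
`(x, y) ↦ (u² x + r, u³ y + u² s x + t)`. -/
noncomputable def vcPoint : (C • W).toAffine.Point ≃+ W.toAffine.Point :=
  AddEquiv.ofBijective
    ({ toFun := toFun W C
       map_zero' := rfl
       map_add' := toFun_add W C } : (C • W).toAffine.Point →+ W.toAffine.Point)
    ⟨toFun_injective W C, toFun_surjective W C⟩

@[simp] theorem vcPoint_zero : vcPoint W C 0 = 0 := rfl

@[simp] theorem vcPoint_some {x y : F} (h : (C • W).toAffine.Nonsingular x y) :
    vcPoint W C (.some x y h)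
      = .some (vcX C x) (vcY C x y) ((nonsingular_smul_iff W C x y).mp h) := rfl

end formulas

end Fermat.Agent.Lib.VC
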